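/-
P3-LR, block [NE], step (NE-card), polynomial part (Mathlib only).

For `Φ` monic of degree `M + 1` and `Ψ` of degree `≤ M` with nonzero coefficient at `M`, having
no common root over an algebraically closed field `K`, the polynomial `Φ - c Ψ` is separable
(so has `M + 1` distinct roots) for all but finitely many `c : K`.
-/
import Mathlib

set_option autoImplicit false

namespace Fermat.Agent.P3LR.NE.GenericFibre

open Polynomial

variable {K : Type*} [Field K]

/-- The Wronskian `Φ' Ψ - Φ Ψ'`. -/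
noncomputable def wronskian (Φ Ψ : K[X]) : K[X] :=
  derivative Φ * Ψ - Φ * derivative Ψ

lemma eval_wronskian (Φ Ψ : K[X]) (a : K) :
    (wronskian Φ Ψ).eval a =
      (derivative Φ).eval a * Ψ.eval a - Φ.eval a * (derivative Ψ).eval a := by
  simp [wronskian]

/-- The coefficient of the Wronskian at `M + M` is the coefficient of `Ψ` at `M`. -/
lemma coeff_wronskian {Φ Ψ : K[X]} {M : ℕ} (hΦd : Φ.natDegree ≤ M + 1)
    (hΦc : Φ.coeff (M + 1) = 1) (hΨd : Ψ.natDegree ≤ M) :
    (wronskian Φ Ψ).coeff (M + M) = Ψ.coeff M := by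
  have h1 : (derivative Φ * Ψ).coeff (M + M) = ((M : K) + 1) * Ψ.coeff M := by
    have hd : (derivative Φ).natDegree ≤ M :=
      (natDegree_derivative_le Φ).trans (by omega)
    rw [coeff_mul_add_eq_of_natDegree_le hd hΨd, coeff_derivative, hΦc, one_mul]
  have h2 : (Φ * derivative Ψ).coeff (M + M) = (M : K) * Ψ.coeff M := by
    rcases Nat.eq_zero_or_pos M with hM | hM
    · subst hM
      have : derivative Ψ = 0 := by
        rw [eq_C_of_natDegree_le_zero hΨd, derivative_C]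
      simp [this]
    · obtain ⟨M', rfl⟩ : ∃ M', M = M' + 1 := ⟨M - 1, by omega⟩
      have hd : (derivative Ψ).natDegree ≤ M' :=
        (natDegree_derivative_le Ψ).trans (by omega)
      have : M' + 1 + (M' + 1) = (M' + 1 + 1) + M' := by ring
      rw [this, coeff_mul_add_eq_of_natDegree_le hΦd hd, coeff_derivative, hΦc, one_mul]
      push_cast
      ring
  rw [wronskian, coeff_sub, h1, h2]
  ring

lemma wronskian_ne_zero {Φ Ψ : K[X]} {M : ℕ} (hΦd : Φ.natDegree ≤ M + 1)
    (hΦc : Φ.coeff (M + 1) = 1) (hΨd : Ψ.natDegree ≤ M) (hΨc : Ψ.coeff M ≠ 0) :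
    wronskian Φ Ψ ≠ 0 := by
  intro h
  have := coeff_wronskian hΦd hΦc hΨd
  rw [h, coeff_zero] at this
  exact hΨc this.symm

/-- The finite set of bad values `c`. -/
noncomputable def badSet [DecidableEq K] (Φ Ψ : K[X]) : Finset K :=
  (wronskian Φ Ψ).roots.toFinset.image fun x => Φ.eval x / Ψ.eval x

/-- Away from the bad set, `Φ - c Ψ` is separable. -/
theorem separable_sub_C_mul [IsAlgClosed K] [DecidableEq K] {Φ Ψ : K[X]} {M : ℕ}
    (hΦd : Φ.natDegree ≤ M + 1)
    (hΦc : Φ.coeff (M + 1) = 1) (hΨd : Ψ.natDegree ≤ M) (hΨc : Ψ.coeff M ≠ 0)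
    (hcop : ∀ a : K, Ψ.eval a = 0 → Φ.eval a ≠ 0) {c : K} (hc : c ∉ badSet Φ Ψ) :
    (Φ - C c * Ψ).Separable := by
  rw [Polynomial.separable_def, Polynomial.isCoprime_iff_aeval_ne_zero_of_isAlgClosed (k := K) K]
  intro a
  by_contra hcon
  rw [not_or, not_not, not_not] at hcon
  obtain ⟨h0, h0'⟩ := hcon
  simp only [coe_aeval_eq_eval, eval_sub, eval_mul, eval_C, derivative_sub, derivative_mul,
    derivative_C, zero_mul, zero_add] at h0 h0'
  have hW : (wronskian Φ Ψ).eval a = 0 := by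
    rw [eval_wronskian]
    linear_combination Ψ.eval a * h0' - (derivative Ψ).eval a * h0
  have hΨa : Ψ.eval a ≠ 0 := by
    intro hΨa
    apply hcop a hΨa
    rw [hΨa, mul_zero, sub_zero] at h0
    exact h0
  apply hc
  rw [badSet, Finset.mem_image]
  refine ⟨a, ?_, ?_⟩
  · rw [Multiset.mem_toFinset, mem_roots (wronskian_ne_zero hΦd hΦc hΨd hΨc)]
    exact hW
  · rw [div_eq_iff hΨa]
    linear_combination h0

/-- The degree of `Φ - c Ψ`. -/
lemma natDegree_sub_C_mul {Φ Ψ : K[X]} {M : ℕ} (hΦd : Φ.natDegree ≤ M + 1)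
    (hΦc : Φ.coeff (M + 1) = 1) (hΨd : Ψ.natDegree ≤ M) (c : K) :
    (Φ - C c * Ψ).natDegree = M + 1 := by
  have hΦ : Φ.natDegree = M + 1 := by
    refine le_antisymm hΦd (le_natDegree_of_ne_zero ?_)
    rw [hΦc]
    exact one_ne_zero
  have hlt : (C c * Ψ).natDegree < Φ.natDegree := by
    rw [hΦ]
    exact lt_of_le_of_lt (natDegree_C_mul_le c Ψ) (Nat.lt_succ_of_le hΨd)
  rw [natDegree_sub_eq_left_of_natDegree_lt hlt, hΦ]

/-- **Generic fibre.** For all `c` outside a finite set, `Φ - c Ψ` has exactly `M + 1` distinct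
roots. -/
theorem card_roots_toFinset [IsAlgClosed K] [DecidableEq K] {Φ Ψ : K[X]} {M : ℕ}
    (hΦd : Φ.natDegree ≤ M + 1)
    (hΦc : Φ.coeff (M + 1) = 1) (hΨd : Ψ.natDegree ≤ M) (hΨc : Ψ.coeff M ≠ 0)
    (hcop : ∀ a : K, Ψ.eval a = 0 → Φ.eval a ≠ 0) {c : K} (hc : c ∉ badSet Φ Ψ) :
    (Φ - C c * Ψ).roots.toFinset.card = M + 1 := by
  have hsep := separable_sub_C_mul hΦd hΦc hΨd hΨc hcop hc
  rw [Multiset.toFinset_card_of_nodup (nodup_roots hsep), IsAlgClosed.card_roots_eq_natDegree,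
    natDegree_sub_C_mul hΦd hΦc hΨd]

/-- A good value of `c` exists. -/
theorem exists_good [IsAlgClosed K] [DecidableEq K] (Φ Ψ : K[X]) : ∃ c : K, c ∉ badSet Φ Ψ :=
  Infinite.exists_notMem_finset _

end Fermat.Agent.P3LR.NE.GenericFibre
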