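/-
P3-LR, block [NE], step (NE-card): the exact count of `n`-torsion points.

For a Weierstrass curve `W` with `Δ ≠ 0` over an algebraically closed field `K` and odd `n`
with `(n : K) ≠ 0`:  `#W(K)[n] = n²`.

Proof: for generic `c : K`, the polynomial `Φ_n - c ΨSq_n` has `n²` distinct roots `x`; a point
`P_x` above `x` has `x(n • P_x) = c`, so `n • P_x = ± Q` for a fixed `Q`; after changing signs we
get `n²` distinct points in one fibre of `[n]`, i.e. `n²` distinct `n`-torsion points.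
The upper bound is `Fermat.Agent.Tors.card_torsionBy_le`.
-/
import Fermat.Agent.Tors.Count
import Fermat.Agent.S13.Count
import Fermat.Agent.P3LR.NE.GenericFibre

set_option autoImplicit false

namespace Fermat.Agent.P3LR.NE.CardTorsion

open WeierstrassCurve WeierstrassCurve.Affine WeierstrassCurve.Affine.Point Polynomial
open Fermat.Agent.S05 Fermat.Agent.Tors

variable {K : Type*} [Field K] {W : Affine K}

/-- A chosen point above a given `x`-coordinate. -/
noncomputable def ptAbove [IsAlgClosed K] (hΔ : W.Δ ≠ 0) (x : K) : W.Point :=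
  Point.some x (Fermat.Agent.S13.Count.exists_equation W x).choose
    ((equation_iff_nonsingular_of_Δ_ne_zero hΔ).mp
      (Fermat.Agent.S13.Count.exists_equation W x).choose_spec)

lemma xc_ptAbove [IsAlgClosed K] (hΔ : W.Δ ≠ 0) (x : K) : xc (ptAbove hΔ x) = x := rfl

lemma ptAbove_ne_zero [IsAlgClosed K] (hΔ : W.Δ ≠ 0) (x : K) : ptAbove hΔ x ≠ 0 :=
  Point.some_ne_zero _

variable [DecidableEq K]

/-- `ΨSq n` and `Φ n` have no common root (over an algebraically closed field, `Δ ≠ 0`). -/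
lemma Φ_ne_zero_of_ΨSq_eq_zero' [IsAlgClosed K] (hΔ : W.Δ ≠ 0) (m : ℤ) (a : K)
    (ha : (W.ΨSq m).eval a = 0) : (W.Φ m).eval a ≠ 0 := by
  obtain ⟨y, hy⟩ := Fermat.Agent.S13.Count.exists_equation W a
  exact Φ_ne_zero_of_ΨSq_eq_zero ((equation_iff_nonsingular_of_Δ_ne_zero hΔ).mp hy) m ha

/-- If `Φ_m(x) = c ΨSq_m(x)` and `ΨSq_m(x) ≠ 0`, then the point above `x` has `m • P ≠ 0` with
`x`-coordinate `c`. -/
lemma zsmul_ptAbove [IsAlgClosed K] (hΔ : W.Δ ≠ 0) (m : ℤ) {x c : K}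
    (hx : (W.Φ m).eval x = c * (W.ΨSq m).eval x) (hΨ : (W.ΨSq m).eval x ≠ 0) :
    m • ptAbove hΔ x ≠ 0 ∧ xc (m • ptAbove hΔ x) = c := by
  have h0 : m • ptAbove hΔ x ≠ 0 := by
    rw [ptAbove, Ne, zsmul_eq_zero_iff_ΨSq]
    exact hΨ
  refine ⟨h0, ?_⟩
  have := xc_zsmul_mul_ΨSq (W := W) _ m h0
  rw [hx] at this
  exact mul_right_cancel₀ hΨ this

/-- **Lower bound**: `n² ≤ #W(K)[n]`. -/
theorem sq_le_card_torsionBy [IsAlgClosed K] (hΔ : W.Δ ≠ 0) {n : ℕ} (hn : Odd n)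
    (hnK : (n : K) ≠ 0) :
    n ^ 2 ≤ Nat.card (Submodule.torsionBy ℤ W.Point (n : ℤ)) := by
  have hnpos : 0 < n := hn.pos
  have hnZ : ((n : ℤ) : K) ≠ 0 := by exact_mod_cast hnK
  obtain ⟨M, hM⟩ : ∃ M, n ^ 2 = M + 1 := ⟨n ^ 2 - 1, by
    have : 0 < n ^ 2 := by positivity
    omega⟩
  set Φ := W.Φ (n : ℤ) with hΦ
  set Ψ := W.ΨSq (n : ℤ) with hΨ
  have hΦd : Φ.natDegree ≤ M + 1 := by
    rw [← hM]
    have := W.natDegree_Φ_le (n : ℤ)
    rwa [Int.natAbs_natCast] at this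
  have hΦc : Φ.coeff (M + 1) = 1 := by
    rw [← hM]
    have := W.coeff_Φ (n : ℤ)
    rwa [Int.natAbs_natCast] at this
  have hM' : (n : ℤ).natAbs ^ 2 - 1 = M := by
    simp only [Int.natAbs_natCast]
    omega
  have hΨd : Ψ.natDegree ≤ M := by
    rw [← hM']
    exact W.natDegree_ΨSq_le (n : ℤ)
  have hΨc : Ψ.coeff M ≠ 0 := by
    rw [← hM', hΨ, W.coeff_ΨSq (n : ℤ)]
    exact pow_ne_zero 2 hnZ
  have hcop : ∀ a : K, Ψ.eval a = 0 → Φ.eval a ≠ 0 := Φ_ne_zero_of_ΨSq_eq_zero' hΔ (n : ℤ)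
  obtain ⟨c, hc⟩ := GenericFibre.exists_good Φ Ψ
  have hcard := GenericFibre.card_roots_toFinset hΦd hΦc hΨd hΨc hcop hc
  set S := (Φ - C c * Ψ).roots.toFinset with hS
  have hFne : Φ - C c * Ψ ≠ 0 := by
    intro h
    have := GenericFibre.natDegree_sub_C_mul hΦd hΦc hΨd c
    rw [h, natDegree_zero] at this
    omega
  -- properties of the roots
  have hroot : ∀ x ∈ S, Φ.eval x = c * Ψ.eval x ∧ Ψ.eval x ≠ 0 := by
    intro x hx
    rw [hS, Multiset.mem_toFinset, mem_roots hFne, IsRoot.def, eval_sub, eval_mul, eval_C,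
      sub_eq_zero] at hx
    refine ⟨hx, fun h0 => hcop x h0 ?_⟩
    rw [hx, h0, mul_zero]
  have hpt : ∀ x ∈ S, (n : ℤ) • ptAbove hΔ x ≠ 0 ∧ xc ((n : ℤ) • ptAbove hΔ x) = c :=
    fun x hx => zsmul_ptAbove hΔ (n : ℤ) (hroot x hx).1 (hroot x hx).2
  -- a base root
  have hSne : S.Nonempty := by
    rw [← Finset.card_pos, hcard]
    omega
  obtain ⟨x₀, hx₀⟩ := hSne
  set Q : W.Point := (n : ℤ) • ptAbove hΔ x₀ with hQ
  have hQ0 : Q ≠ 0 := (hpt x₀ hx₀).1
  have hQx : xc Q = c := (hpt x₀ hx₀).2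
  -- sign-adjusted points
  let P' : K → W.Point := fun x =>
    if (n : ℤ) • ptAbove hΔ x = Q then ptAbove hΔ x else -ptAbove hΔ x
  have hP'x : ∀ x, xc (P' x) = x := by
    intro x
    simp only [P']
    split_ifs
    · exact xc_ptAbove hΔ x
    · rw [xc_neg]
      exact xc_ptAbove hΔ x
  have hP'n : ∀ x ∈ S, (n : ℤ) • P' x = Q := by
    intro x hx
    simp only [P']
    split_ifs with h
    · exact h
    · have h1 := hpt x hx
      rcases (xc_eq_iff h1.1 hQ0).mp (h1.2.trans hQx.symm) with h2 | h2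
      · exact absurd h2 h
      · rw [smul_neg, h2, neg_neg]
  -- the injection into the torsion
  have hmem : ∀ x : S, P' x - P' x₀ ∈ Submodule.torsionBy ℤ W.Point (n : ℤ) := by
    intro x
    rw [Submodule.mem_torsionBy_iff, smul_sub, hP'n x x.2, hP'n x₀ hx₀, sub_self]
  let f : S → Submodule.torsionBy ℤ W.Point (n : ℤ) := fun x => ⟨P' x - P' x₀, hmem x⟩
  have hf : Function.Injective f := by
    intro x x' hxx'
    have h1 : P' x - P' x₀ = P' x' - P' x₀ := congrArg Subtype.val hxx'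
    have h2 : P' (x : K) = P' (x' : K) := sub_left_injective h1
    apply Subtype.ext
    rw [← hP'x x, h2, hP'x]
  have : Finite (Submodule.torsionBy ℤ W.Point (n : ℤ)) := finite_torsionBy hn hnK
  have := Nat.card_le_card_of_injective f hf
  rw [Nat.card_eq_fintype_card, Fintype.card_coe, hcard, ← hM] at this
  exact this

/-- **Exact count**: `#W(K)[n] = n²` for `K` algebraically closed, `Δ ≠ 0`, `n` odd and nonzero
in `K`. -/
theorem card_torsionBy_eq_sq [IsAlgClosed K] (hΔ : W.Δ ≠ 0) {n : ℕ} (hn : Odd n)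
    (hnK : (n : K) ≠ 0) :
    Nat.card (Submodule.torsionBy ℤ W.Point (n : ℤ)) = n ^ 2 :=
  le_antisymm (card_torsionBy_le hn hnK) (sq_le_card_torsionBy hΔ hn hnK)

end Fermat.Agent.P3LR.NE.CardTorsion
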